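/-
Programme MW (S17), brick NC-B (helper25), task T7 (class half):
**helper15's classes of lists of `K`-points (`Bridge15.classOfPoints`) are helper85's classes of
multisets of places (`NorthA85.pointsClassGen`).**

* `pointsDegZero_singleton`      : `P - oo` in both vocabularies;
* `pointsClassGen_singleton_eq`  : `pointsClassGen oo hx {P} = Pic0.mk (pointDiv P oo)`;
* `classOfPoints_eq`             : `classOfPoints M l = pointsClassGen (placeBase M) hx ↑(l.map (placeOfPoint M))`.
-/
import Mathlib
import Fermat.Agent.MW.Bridge15.AJFinal
import Fermat.Agent.MW.NorthA85.Points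

set_option autoImplicit false
set_option maxHeartbeats 400000
set_option linter.unusedSectionVars false

noncomputable section

universe u

open CategoryTheory CategoryTheory.Limits AlgebraicGeometry NeronModelInfra AlgebraicCurve

namespace Fermat.Agent.MW.NorthB25

open Fermat.Agent.MW.Bridge15 Fermat.Agent.MW.NorthA85 Fermat.Agent.AV.F1Model15
  Fermat.Agent.X0.FF Fermat.Agent.RR.LSpace Fermat.Agent.RR.LHypGen

variable {K F : Type u} [Field K] [Field F] [Algebra K F] [IsAlgClosed K] [CharZero K]
  [IsCurveOver K F] {x : F}

theorem pointsDegZero_singleton (H : LHyp K F) (P oo : Place K F) :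
    pointsDegZero oo H ({P} : Multiset (Place K F)) = pointDiv P oo := by
  apply Subtype.ext
  rw [coe_pointsDegZero, pointsDiv_singleton, Multiset.card_singleton]
  simp [pointDiv]

theorem pointsClassGen_singleton_eq (hx : IsGen K x) (P oo : Place K F) :
    pointsClassGen oo hx ({P} : Multiset (Place K F)) = Pic0.mk (pointDiv P oo) := by
  unfold pointsClassGen pointsClass
  rw [pointsDegZero_singleton]

variable (M : Model K F)

/-- **helper15's classes are helper85's classes.** -/
theorem classOfPoints_eq (hx : IsGen K x)
    (l : List (SchemeHomOver (𝟙 (Spec (CommRingCat.of K))) M.c)) :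
    classOfPoints M l =
      pointsClassGen (placeBase M) hx
        ((l.map (placeOfPoint M) : List (Place K F)) : Multiset (Place K F)) := by
  rw [pointsClassGen_coe_list, List.map_map]
  unfold classOfPoints
  congr 1
  apply List.map_congr_left
  intro σ _
  exact (pointsClassGen_singleton_eq hx _ _).symm

end Fermat.Agent.MW.NorthB25
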