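/-
Programme MW (S17), brick NC-B (helper25), tasks T4/T7, generic part:
**coordinates of the fibre powers `C^r` of a scheme over a field and the coordinate functions.**

For `c : C ⟶ Spec k`, `X_r := (fibrePower c r).left` (`Jac/QShell79Power`):

* `coordPow c r j : X_r ⟶ C`            : the `j`-th coordinate `pr_j`; `coordPow_comp`;
* `X0pow c U r : X_r.Opens`              : `⨅ j, pr_j ⁻¹ᵁ U` (all coordinates in the open `U`);
* `zfun c U t r j : Γ(X_r, X0pow c U r)` : the function `t ∘ pr_j` on `X0pow` (`t ∈ Γ(C, U)`);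
* `mem_X0pow_iff`                        : a point lies in `X0pow` iff all its coordinates lie in `U`;
* `germVal_zfun`                         : the value of `zfun … j` at a field-valued point `w` is
                                           the value of `t` at the `j`-th coordinate `w ≫ pr_j`.
-/
import Mathlib
import Fermat.Agent.Jac.QShell79Power
import Fermat.Agent.MW.NorthB10.GermVal

set_option autoImplicit false
set_option maxHeartbeats 400000

noncomputable section

universe u

open CategoryTheory CategoryTheory.Limits AlgebraicGeometry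

namespace Fermat.Agent.MW.NorthB25

open Fermat.Agent.Jac.QShell79Power Fermat.Agent.MW.NorthB10

variable {S C : Scheme.{u}} (c : C ⟶ S)

/-- The `j`-th coordinate `pr_j : C^r ⟶ C`. -/
def coordPow : (r : ℕ) → Fin r → ((fibrePower c r).left ⟶ C)
  | 0 => fun j => j.elim0
  | r + 1 => fun j => Fin.cases (fibrePowerHead c r) (fun j' => fibrePowerTail c r ≫ coordPow r j') j

@[simp] theorem coordPow_zero (r : ℕ) : coordPow c (r + 1) 0 = fibrePowerHead c r := rfl

@[simp] theorem coordPow_succ (r : ℕ) (j : Fin r) :
    coordPow c (r + 1) j.succ = fibrePowerTail c r ≫ coordPow c r j := rfl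

theorem coordPow_comp : ∀ (r : ℕ) (j : Fin r), coordPow c r j ≫ c = (fibrePower c r).hom
  | 0 => fun j => j.elim0
  | r + 1 => fun j => by
    refine Fin.cases ?_ (fun j' => ?_) j
    · exact fibrePowerHead_comp c r
    · rw [coordPow_succ, Category.assoc, coordPow_comp r j', fibrePowerTail_comp]

/-- The open subset of `C^r` where all coordinates lie in the open `U` of `C`. -/
def X0pow (U : C.Opens) (r : ℕ) : (fibrePower c r).left.Opens :=
  ⨅ j : Fin r, coordPow c r j ⁻¹ᵁ U

theorem X0pow_le (U : C.Opens) (r : ℕ) (j : Fin r) : X0pow c U r ≤ coordPow c r j ⁻¹ᵁ U :=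
  iInf_le _ j

theorem mem_X0pow_iff (U : C.Opens) (r : ℕ) (x : (fibrePower c r).left) :
    x ∈ X0pow c U r ↔ ∀ j : Fin r, coordPow c r j x ∈ U := by
  unfold X0pow
  rw [← SetLike.mem_coe, TopologicalSpace.Opens.coe_iInf]
  simp only [Set.mem_iInter, SetLike.mem_coe]
  rfl

/-- The coordinate function `t ∘ pr_j` on the open `X0pow c U r` of `C^r`. -/
def zfun (U : C.Opens) (t : Γ(C, U)) (r : ℕ) (j : Fin r) :
    Γ((fibrePower c r).left, X0pow c U r) :=
  ((fibrePower c r).left.presheaf.map (homOfLE (X0pow_le c U r j)).op).hom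
    (((coordPow c r j).app U).hom t)

variable {E : Type u} [Field E]

/-- **Values of the coordinate functions**: the value of `t ∘ pr_j` at a field-valued point `w`
of `C^r` is the value of `t` at the `j`-th coordinate of `w`. -/
theorem germVal_zfun (U : C.Opens) (t : Γ(C, U)) (r : ℕ) (j : Fin r)
    (w : Spec (CommRingCat.of E) ⟶ (fibrePower c r).left)
    (hw : w (IsLocalRing.closedPoint E) ∈ X0pow c U r)
    (hj : (w ≫ coordPow c r j) (IsLocalRing.closedPoint E) ∈ U) :
    germVal w (X0pow c U r) hw (zfun c U t r j) = germVal (w ≫ coordPow c r j) U hj t := by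
  unfold zfun
  rw [germVal_res w (X0pow_le c U r j) hw, germVal_comp]

theorem comp_coordPow_mem (U : C.Opens) (r : ℕ) (j : Fin r)
    (w : Spec (CommRingCat.of E) ⟶ (fibrePower c r).left)
    (hw : w (IsLocalRing.closedPoint E) ∈ X0pow c U r) :
    (w ≫ coordPow c r j) (IsLocalRing.closedPoint E) ∈ U :=
  (mem_X0pow_iff c U r _).mp hw j

theorem mem_X0pow_of_forall (U : C.Opens) (r : ℕ)
    (w : Spec (CommRingCat.of E) ⟶ (fibrePower c r).left)
    (h : ∀ j : Fin r, (w ≫ coordPow c r j) (IsLocalRing.closedPoint E) ∈ U) :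
    w (IsLocalRing.closedPoint E) ∈ X0pow c U r :=
  (mem_X0pow_iff c U r _).mpr h

end Fermat.Agent.MW.NorthB25
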