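/-
Programme MW (S17), brick NC-B (helper25), task T7 (universal property half):
**`K`-points of the power `X^r` of a pointed curve versus `r`-tuples of `K`-points of the curve**,
in helper32's vocabulary (`MW/NorthB32/Strata.lean`: `pw X r`, `pwHom X r`, `coord X r j`).

* `PwPt X r`            : the `K`-points of `X^r`;
* `pwComp w j`          : the `j`-th coordinate `w ≫ coord X r j` of a `K`-point `w` of `X^r`;
* `pwOfFn X r v`        : the `K`-point of `X^r` with prescribed coordinates `v : Fin r → X(K)`;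
* `pwComp_pwOfFn`       : `pwComp (pwOfFn X r v) j = v j`;
* `pwPt_ext`            : a `K`-point of `X^r` is determined by its coordinates;
* `pwOfFn_pwComp`       : `pwOfFn X r (pwComp w) = w`;
* `pwPtEquiv X r`       : `PwPt X r ≃ (Fin r → X(K))`.
-/
import Mathlib
import Fermat.Agent.MW.NorthB32.Strata

set_option autoImplicit false
set_option maxHeartbeats 400000

noncomputable section

universe u

open CategoryTheory CategoryTheory.Limits AlgebraicGeometry NeronModelInfra GoodReductionJacobian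

namespace Fermat.Agent.MW.NorthB25

open Fermat.Agent.AV.Curv33 Fermat.Agent.MW.NorthB32

variable {K : Type u} [Field K] {A : Scheme.{u}} {f : A ⟶ Spec (CommRingCat.of K)}
  {e : SchemeHomOver (𝟙 (Spec (CommRingCat.of K))) f}

/-- The `K`-points of the curve `X`. -/
abbrev CPt (X : CurveTo f e) : Type u := SchemeHomOver (𝟙 (Spec (CommRingCat.of K))) X.c

/-- The `K`-points of the power `X^r`. -/
abbrev PwPt (X : CurveTo f e) (r : ℕ) : Type u :=
  SchemeHomOver (𝟙 (Spec (CommRingCat.of K))) (pwHom X r)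

/-- The `j`-th coordinate of a `K`-point of `X^r`. -/
def pwComp {X : CurveTo f e} {r : ℕ} (w : PwPt X r) (j : Fin r) : CPt X :=
  ⟨w.1 ≫ coord X r j, by rw [Category.assoc, coord_c, w.2]⟩

@[simp] theorem pwComp_coe {X : CurveTo f e} {r : ℕ} (w : PwPt X r) (j : Fin r) :
    (pwComp w j).1 = w.1 ≫ coord X r j := rfl

/-- The projection of a `K`-point of `X^(r+1)` to the last `r` coordinates. -/
def pwTail {X : CurveTo f e} {r : ℕ} (w : PwPt X (r + 1)) : PwPt X r :=
  ⟨w.1 ≫ pwSnd X r, by rw [Category.assoc, pwSnd_hom, w.2]⟩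

theorem pwComp_succ {X : CurveTo f e} {r : ℕ} (w : PwPt X (r + 1)) (j : Fin r) :
    pwComp w j.succ = pwComp (pwTail w) j := by
  apply Subtype.ext
  show w.1 ≫ coord X (r + 1) j.succ = (w.1 ≫ pwSnd X r) ≫ coord X r j
  rw [coord_succ, Category.assoc]

/-- The `K`-point of `X^r` with prescribed coordinates. -/
def pwOfFn (X : CurveTo f e) : (r : ℕ) → (Fin r → CPt X) → PwPt X r
  | 0, _ => ⟨𝟙 _, Category.id_comp _⟩
  | r + 1, v =>
    ⟨pullback.lift (v 0).1 (pwOfFn X r fun j => v j.succ).1
        (by rw [(v 0).2, (pwOfFn X r fun j => v j.succ).2]), by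
      change pullback.lift (v 0).1 (pwOfFn X r fun j => v j.succ).1 _ ≫
        (pullback.fst X.c (pwHom X r) ≫ X.c) = _
      rw [pullback.lift_fst_assoc, (v 0).2]⟩

theorem pwOfFn_succ_fst (X : CurveTo f e) (r : ℕ) (v : Fin (r + 1) → CPt X) :
    (pwOfFn X (r + 1) v).1 ≫ pwFst X r = (v 0).1 :=
  pullback.lift_fst _ _ _

theorem pwOfFn_succ_snd (X : CurveTo f e) (r : ℕ) (v : Fin (r + 1) → CPt X) :
    (pwOfFn X (r + 1) v).1 ≫ pwSnd X r = (pwOfFn X r fun j => v j.succ).1 :=
  pullback.lift_snd _ _ _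

theorem pwTail_pwOfFn (X : CurveTo f e) (r : ℕ) (v : Fin (r + 1) → CPt X) :
    pwTail (pwOfFn X (r + 1) v) = pwOfFn X r fun j => v j.succ :=
  Subtype.ext (pwOfFn_succ_snd X r v)

/-- **The coordinates of `pwOfFn X r v` are the `v j`.** -/
theorem pwComp_pwOfFn (X : CurveTo f e) : ∀ (r : ℕ) (v : Fin r → CPt X) (j : Fin r),
    pwComp (pwOfFn X r v) j = v j
  | 0, _, j => j.elim0
  | r + 1, v, j => by
    refine Fin.cases ?_ (fun j' => ?_) j
    · exact Subtype.ext (pwOfFn_succ_fst X r v)
    · rw [pwComp_succ, pwTail_pwOfFn, pwComp_pwOfFn X r]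

theorem pwOfFn_coord (X : CurveTo f e) (r : ℕ) (v : Fin r → CPt X) (j : Fin r) :
    (pwOfFn X r v).1 ≫ coord X r j = (v j).1 :=
  congrArg Subtype.val (pwComp_pwOfFn X r v j)

/-- **A `K`-point of `X^r` is determined by its coordinates.** -/
theorem pwPt_ext (X : CurveTo f e) : ∀ (r : ℕ) (w w' : PwPt X r),
    (∀ j, pwComp w j = pwComp w' j) → w = w'
  | 0, w, w' => fun _ => by
    apply Subtype.ext
    have : IsIso (pwHom X 0) := inferInstanceAs (IsIso (𝟙 (Spec (CommRingCat.of K))))
    exact (cancel_mono (pwHom X 0)).1 (w.2.trans w'.2.symm)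
  | r + 1, w, w' => fun h => by
    have ht : pwTail w = pwTail w' :=
      pwPt_ext X r (pwTail w) (pwTail w') fun j => by
        rw [← pwComp_succ, ← pwComp_succ, h]
    have hh : pwComp w 0 = pwComp w' 0 := h 0
    apply Subtype.ext
    apply pullback.hom_ext
    · exact congrArg Subtype.val hh
    · exact congrArg Subtype.val ht

theorem pwOfFn_pwComp (X : CurveTo f e) (r : ℕ) (w : PwPt X r) : pwOfFn X r (pwComp w) = w :=
  pwPt_ext X r _ _ fun j => pwComp_pwOfFn X r _ j

/-- **`K`-points of `X^r` are `r`-tuples of `K`-points of `X`.** -/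
def pwPtEquiv (X : CurveTo f e) (r : ℕ) : PwPt X r ≃ (Fin r → CPt X) where
  toFun w := pwComp w
  invFun v := pwOfFn X r v
  left_inv w := pwOfFn_pwComp X r w
  right_inv v := funext fun j => pwComp_pwOfFn X r v j

end Fermat.Agent.MW.NorthB25
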