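/-
Programme MW (S17), brick NC-B (helper25), tasks T7/T8, abstract point dictionary:
**the two dictionary hypotheses `hdict`, `hdict'` of helper10's final wiring
(`NorthB10/Wiring.lean`: `stratumBound_abstract`, `exists_stratumBound_of_geomCore`)
from three facts about the powers `X^r` of a pointed curve `X : CurveTo f 0`**:

* `pp : X(K) ≃ Pl`            : `K`-points of the curve ↔ places (`Bridge34.pointPlaceEquiv`);
* `hσ`                         : `σ_r(w) = β (cls {pp (w_j)})` (helper15's `sigmaPtK_eq_β` + class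
                                 bridge);
* `hval`                       : `z_j(w) = t (pp (w_j))` whenever `pp (w_j) ≠ oo` (T6, helper34).

Everything is in helper32's vocabulary (`pw X r`, `coord X r j`, `sigma G X r`) and uses the
universal property `NorthB25.pwOfFn` of the powers.
-/
import Mathlib
import Fermat.Agent.MW.NorthB25.PwPoints
import Fermat.Agent.MW.NorthB10.GermVal

set_option autoImplicit false
set_option maxHeartbeats 400000

noncomputable section

universe u

open CategoryTheory CategoryTheory.Limits AlgebraicGeometry NeronModelInfra GoodReductionJacobian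

namespace Fermat.Agent.MW.NorthB25

open Fermat.Agent.AV.Curv33 Fermat.Agent.MW.NorthB32 Fermat.Agent.MW.NorthB10

variable {K : Type u} [Field K] {A : Scheme.{u}} {f : A ⟶ Spec (CommRingCat.of K)}
  (G : RelativeGroupLaw K f) (X : CurveTo f (G.one (𝟙 (Spec (CommRingCat.of K)))))

theorem sigma_f (r : ℕ) : sigma G X r ≫ f = pwHom X r := sumMap_f G (pwList X r)

/-- The image of a `K`-point of `X^r` under the sum map, as a `K`-point of `A`. -/
def sigmaK (r : ℕ) (w : PwPt X r) : SchemeHomOver (𝟙 (Spec (CommRingCat.of K))) f :=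
  ⟨w.1 ≫ sigma G X r, by rw [Category.assoc, sigma_f, w.2]⟩

@[simp] theorem sigmaK_coe (r : ℕ) (w : PwPt X r) : (sigmaK G X r w).1 = w.1 ≫ sigma G X r := rfl

/-- A morphism `Spec K ⟶ X^r` whose image under `σ_r` is a `K`-point of `A` is a `K`-point of
`X^r`. -/
theorem comp_pwHom_of_sigma (r : ℕ) (w : Spec (CommRingCat.of K) ⟶ pw X r)
    (hw : (w ≫ sigma G X r) ≫ f = 𝟙 _) : w ≫ pwHom X r = 𝟙 _ := by
  rw [← sigma_f G X r, ← Category.assoc]
  exact hw

section Places

variable {G}

/-- The multiset of places of the coordinates of a `K`-point of `X^r`. -/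
def placesOf {Pl : Type*} (pp : CPt X ≃ Pl) {r : ℕ} (w : PwPt X r) : Multiset Pl :=
  ((List.ofFn fun j => pp (pwComp w j) : List Pl) : Multiset Pl)

theorem card_placesOf {Pl : Type*} (pp : CPt X ≃ Pl) {r : ℕ} (w : PwPt X r) :
    Multiset.card (placesOf X pp w) = r := by
  simp [placesOf]

theorem mem_placesOf {Pl : Type*} (pp : CPt X ≃ Pl) {r : ℕ} (w : PwPt X r) (P : Pl) :
    P ∈ placesOf X pp w ↔ ∃ j : Fin r, pp (pwComp w j) = P := by
  simp [placesOf, List.mem_ofFn]

/-- Every multiset of `r` places is the multiset of places of a `K`-point of `X^r`. -/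
theorem exists_pwPt_placesOf {Pl : Type*} (pp : CPt X ≃ Pl) (r : ℕ) (l : Multiset Pl)
    (hl : Multiset.card l = r) : ∃ w : PwPt X r, placesOf X pp w = l := by
  induction l using Quotient.inductionOn with
  | h L =>
    have hL : L.length = r := by simpa using hl
    subst hL
    refine ⟨pwOfFn X L.length fun j => pp.symm (L.get j), ?_⟩
    unfold placesOf
    congr 1
    have h1 : (fun j : Fin L.length =>
        pp (pwComp (pwOfFn X L.length fun j => pp.symm (L.get j)) j)) = L.get := by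
      funext j
      rw [pwComp_pwOfFn, Equiv.apply_symm_apply]
    rw [h1, List.ofFn_get]

end Places

section Dict

variable {Pl Cls : Type*} (pp : CPt X ≃ Pl) (cls : Multiset Pl → Cls)
  (β : Cls → SchemeHomOver (𝟙 (Spec (CommRingCat.of K))) f)
  (hσ : ∀ (r : ℕ) (w : PwPt X r), sigmaK G X r w = β (cls (placesOf X pp w)))

include hσ

/-- **`hdict`** of `NorthB10.stratumBound_abstract` for the powers of a pointed curve. -/
theorem hdict_abs (oo : Pl) (t : Pl → K) (r : ℕ) (X₀ : (pw X r).Opens)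
    (z : Fin r → Γ(pw X r, X₀))
    (hval : ∀ (w : PwPt X r) (hw : w.1 (IsLocalRing.closedPoint K) ∈ X₀) (j : Fin r),
      pp (pwComp w j) ≠ oo → germVal w.1 X₀ hw (z j) = t (pp (pwComp w j))) :
    ∀ l : Multiset Pl, Multiset.card l = r → (∀ P ∈ l, P ≠ oo) →
      ∃ (w : Spec (CommRingCat.of K) ⟶ pw X r) (hw : (w ≫ sigma G X r) ≫ f = 𝟙 _),
        (⟨w ≫ sigma G X r, hw⟩ : SchemeHomOver (𝟙 (Spec (CommRingCat.of K))) f) = β (cls l) ∧
        ∀ (hwX : w (IsLocalRing.closedPoint K) ∈ X₀), ∀ P ∈ l, ∃ j,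
          germVal w X₀ hwX (z j) = t P := by
  intro l hl hoo
  obtain ⟨w, rfl⟩ := exists_pwPt_placesOf X pp r l hl
  refine ⟨w.1, (sigmaK G X r w).2, hσ r w, fun hwX P hP => ?_⟩
  obtain ⟨j, rfl⟩ := (mem_placesOf X pp w P).mp hP
  exact ⟨j, hval w hwX j (hoo _ hP)⟩

/-- **`hdict`** in the shape of helper32's `NorthB32.exists_stratumBound_succ`: the values are
taken at the coordinates `w ≫ coord X r i`, points of the curve, on an open `U` of the curve. -/
theorem hdict_abs_coord (oo : Pl) (t : Pl → K) (r : ℕ) (U : X.C.Opens) (tf : Γ(X.C, U))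
    (hval : ∀ (x : CPt X) (hx : x.1 (IsLocalRing.closedPoint K) ∈ U), pp x ≠ oo →
      germVal x.1 U hx tf = t (pp x)) :
    ∀ l : Multiset Pl, Multiset.card l = r → (∀ P ∈ l, P ≠ oo) →
      ∃ (w : Spec (CommRingCat.of K) ⟶ pw X r) (hw : (w ≫ sigma G X r) ≫ f = 𝟙 _),
        (⟨w ≫ sigma G X r, hw⟩ : SchemeHomOver (𝟙 (Spec (CommRingCat.of K))) f) = β (cls l) ∧
        ∀ P ∈ l, ∃ i : Fin r,
          ∀ hi : (w ≫ coord X r i) (IsLocalRing.closedPoint K) ∈ U,
            germVal (w ≫ coord X r i) U hi tf = t P := by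
  intro l hl hoo
  obtain ⟨w, rfl⟩ := exists_pwPt_placesOf X pp r l hl
  refine ⟨w.1, (sigmaK G X r w).2, hσ r w, fun P hP => ?_⟩
  obtain ⟨j, rfl⟩ := (mem_placesOf X pp w P).mp hP
  exact ⟨j, fun hi => hval (pwComp w j) hi (hoo _ hP)⟩

/-- **`hdict'`** of `NorthB10.stratumBound_abstract`: every `K`-point of `X^r'` maps to the class
of `r'` places. -/
theorem hdict'_abs (r' : ℕ) (w' : Spec (CommRingCat.of K) ⟶ pw X r')
    (hw' : (w' ≫ sigma G X r') ≫ f = 𝟙 _) :
    ∃ l' : Multiset Pl, Multiset.card l' = r' ∧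
      (⟨w' ≫ sigma G X r', hw'⟩ : SchemeHomOver (𝟙 (Spec (CommRingCat.of K))) f) = β (cls l') :=
  ⟨placesOf X pp ⟨w', comp_pwHom_of_sigma G X r' w' hw'⟩, card_placesOf X pp _,
    hσ r' ⟨w', comp_pwHom_of_sigma G X r' w' hw'⟩⟩

/-- `hdict'` in the exact shape of `NorthB10.stratumBound_abstract` (stratum `r' + 1`,
previous power `X^r'`). -/
theorem hdict'_abs_lt (r' : ℕ) (w' : Spec (CommRingCat.of K) ⟶ pw X r')
    (hw' : (w' ≫ sigma G X r') ≫ f = 𝟙 _) :
    ∃ l' : Multiset Pl, Multiset.card l' < r' + 1 ∧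
      (⟨w' ≫ sigma G X r', hw'⟩ : SchemeHomOver (𝟙 (Spec (CommRingCat.of K))) f) = β (cls l') := by
  obtain ⟨l', h1, h2⟩ := hdict'_abs G X pp cls β hσ r' w' hw'
  exact ⟨l', by omega, h2⟩

end Dict

end Fermat.Agent.MW.NorthB25
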