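/-
Programme MW (S17), brick NC-B (helper25), tasks T7/T8, CONCRETE point dictionary:
**the two dictionary hypotheses `hdict`, `hdict'` of the final wirings
(`NorthB32.exists_stratumBound_succ`, `NorthB10.exists_stratumBound_of_geomCore'`) for the model
curve `M : F1Model15.Model K F` with its Abel-Jacobi morphism `Bridge15.ajCurveTo M h`.**

Inputs (all on main):
* `NorthB25.DictAbs`     : the abstract dictionaries from `pp`, `hσ`, `hval`;
* `Bridge15.Strata`      : `sigmaPtK_eq_β`, `Copen_ajCurveTo`, `tCopen`, `germVal_tCopen`;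
* `NorthB25.ClassBridge` : `classOfPoints_eq`;
* `Bridge34.ModelPoints` : `pointPlaceEquiv`, `isVal_t`;  `Bridge34.PointPair.placeOfPoint_eq`;
* `Bridge53.Values.germVal_eq_evalAt`.

Exports (with `X := ajCurveTo M h`, `L := law h`, `pp := pointPlaceEquiv M`, `oo` a place with
`hoo : placeBase M = oo`):
* `sigmaK_eq_β`        : `σ_r(w) = β (pointsClassGen (placeBase M) hx {pp w_j})`;
* `germVal_tCopen_eq`  : `t(x) = tv (pp x)` for a `K`-point `x ≠ oo` of the curve;
* `hdict_model`        : `hdict` in the shape of `NorthB32.exists_stratumBound_succ`;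
* `hdict_model_zfun`   : `hdict` in the shape of `NorthB10.exists_stratumBound_of_geomCore'`
                         (`X₀ j = coord_j ⁻¹ Copen X`, `z j = zfun X r j (tCopen ..)`);
* `hdict'_model`, `hdict'_model_lt` : `hdict'` (both shapes).
-/
import Mathlib
import Fermat.Agent.MW.NorthB25.DictAbs
import Fermat.Agent.MW.NorthB25.ClassBridge
import Fermat.Agent.MW.Bridge15.Strata
import Fermat.Agent.MW.Bridge34.PointPair
import Fermat.Agent.MW.Bridge53.Values

set_option autoImplicit false
set_option maxHeartbeats 400000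
set_option linter.unusedSectionVars false
set_option linter.style.haveILetI false

noncomputable section

universe u

open CategoryTheory CategoryTheory.Limits AlgebraicGeometry AlgebraicGeometry.RelPicard
  NeronModelInfra GoodReductionJacobian AlgebraicCurve

namespace Fermat.Agent.MW.NorthB25

open scoped Fermat.Agent.Jac.BaseChange75
open Fermat.Agent.Jac Fermat.Agent.Jac.AbelJacobi73 Fermat.Agent.Jac.BridgeK84
  Fermat.Agent.Jac.FinalWiring41 Fermat.Agent.Jac.LineOps39 Fermat.Agent.AV.F1Model15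
  Fermat.Agent.AV.PicBridge84.SchemeSide Fermat.Agent.AV.PicBridge84
  Fermat.Agent.MW.Bridge34 Fermat.Agent.MW.NorthA85 Fermat.Agent.X0.FF
  Fermat.Agent.AV.Curv33 Fermat.Agent.MW.NorthB32 Fermat.Agent.MW.NorthB10

open Fermat.Agent.MW.Bridge15 (ajCurveTo sigmaPtK sigmaPtK_eq_β classOfPoints placeOfPoint
  placeBase UniquePole Copen_ajCurveTo tCopen germVal_tCopen pt_mem_iff compPt)

variable {K F : Type u} [Field K] [Field F] [Algebra K F] [IsAlgClosed K] (M : Model K F)

attribute [local instance] Model.isIntegral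

variable {D : AffineDictionary M.cc} {D' : RelativePic0Designation K M.c}
  (h : RepresentsRelSubPic M.c M.ε (cut41 D) D')

/-! ### The sum map on `K`-points -/

section Sigma

variable [CharZero K] [IsCurveOver K F] {x : F}

/-- **`hσ`**: `σ_r(w) = β [P_1 + ⋯ + P_r − r·oo]` with `P_j = pointPlaceEquiv M (w_j)`. -/
theorem sigmaK_eq_β (hx : IsGen K x) (r : ℕ) (w : PwPt (ajCurveTo M h) r) :
    sigmaK (law h) (ajCurveTo M h) r w =
      Iso.β M h (pointsClassGen (placeBase M) hx
        (placesOf (ajCurveTo M h) (pointPlaceEquiv M) w)) := by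
  have h1 : sigmaK (law h) (ajCurveTo M h) r w = sigmaPtK M h r w := Subtype.ext rfl
  rw [h1, sigmaPtK_eq_β, classOfPoints_eq M hx]
  congr 2
  unfold placesOf
  rw [List.map_ofFn]
  congr 2
  funext j
  exact placeOfPoint_eq M _

end Sigma

/-! ### The values of the coordinate -/

/-- **`hval`**: the value of the coordinate `t` at a `K`-point `x ≠ oo` of the curve is the value
of `t` at the place of `x`. -/
theorem germVal_tCopen_eq (hpole : UniquePole M) (oo : Place K F) (tv : Place K F → K)
    (htv : ∀ v : Place K F, v ≠ oo → IsVal v M.alg.t (tv v))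
    (x : CPt (ajCurveTo M h))
    (hx : x.1 (IsLocalRing.closedPoint K) ∈ Copen (ajCurveTo M h))
    (hne : pointPlaceEquiv M x ≠ oo) :
    germVal x.1 (Copen (ajCurveTo M h)) hx (tCopen M h hpole) = tv (pointPlaceEquiv M x) := by
  rw [germVal_tCopen]
  have hU : x.1 (IsLocalRing.closedPoint K) ∈ M.cc.U0 := (Copen_ajCurveTo M h hpole).le hx
  have h0 : x.1 ⁻¹ᵁ M.cc.U0 = ⊤ := (pt_mem_iff M x _).1 hU
  have h1 : IsVal (pointPlaceEquiv M x) M.alg.t (germVal x.1 M.cc.U0 hU M.cc.t) := by
    have e := Fermat.Agent.MW.Bridge53.Values.germVal_eq_evalAt x M.cc.U0 h0 hU M.cc.t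
    have h' := isVal_t M x h0
    exact e ▸ h'
  exact h1.unique (htv _ hne)

/-! ### The dictionaries -/

section Dict

variable [CharZero K] [IsCurveOver K F] {x : F}

/-- **`hdict`** for the model curve, in the shape of `NorthB32.exists_stratumBound_succ`. -/
theorem hdict_model (hx : IsGen K x) (hpole : UniquePole M) (oo : Place K F)
    (hoo : placeBase M = oo) (tv : Place K F → K)
    (htv : ∀ v : Place K F, v ≠ oo → IsVal v M.alg.t (tv v)) (r : ℕ) :
    ∀ l : Multiset (Place K F), Multiset.card l = r → (∀ P ∈ l, P ≠ oo) →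
      ∃ (w : Spec (CommRingCat.of K) ⟶ pw (ajCurveTo M h) r)
        (hw : (w ≫ sigma (law h) (ajCurveTo M h) r) ≫ D'.toBase = 𝟙 _),
        (⟨w ≫ sigma (law h) (ajCurveTo M h) r, hw⟩ : Pt D') =
          Iso.β M h (pointsClassGen oo hx l) ∧
        ∀ P ∈ l, ∃ i : Fin r,
          ∀ hi : (w ≫ coord (ajCurveTo M h) r i) (IsLocalRing.closedPoint K) ∈
              Copen (ajCurveTo M h),
            germVal (w ≫ coord (ajCurveTo M h) r i) (Copen (ajCurveTo M h)) hi
              (tCopen M h hpole) = tv P := by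
  subst hoo
  exact hdict_abs_coord (law h) (ajCurveTo M h) (pointPlaceEquiv M)
    (pointsClassGen (placeBase M) hx) (Iso.β M h) (sigmaK_eq_β M h hx) (placeBase M) tv r
    (Copen (ajCurveTo M h)) (tCopen M h hpole)
    (fun y hy hne => germVal_tCopen_eq M h hpole (placeBase M) tv htv y hy hne)

/-- **`hdict`** for the model curve, in the shape of `NorthB10.exists_stratumBound_of_geomCore'`
with `X₀ j := coord X r j ⁻¹ᵁ Copen X` and `z j := NorthB32.zfun X r j (tCopen M h hpole)`. -/
theorem hdict_model_zfun (hx : IsGen K x) (hpole : UniquePole M) (oo : Place K F)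
    (hoo : placeBase M = oo) (tv : Place K F → K)
    (htv : ∀ v : Place K F, v ≠ oo → IsVal v M.alg.t (tv v)) (r : ℕ) :
    ∀ l : Multiset (Place K F), Multiset.card l = r → (∀ P ∈ l, P ≠ oo) →
      ∃ (w : Spec (CommRingCat.of K) ⟶ pw (ajCurveTo M h) r)
        (hw : (w ≫ sigma (law h) (ajCurveTo M h) r) ≫ D'.toBase = 𝟙 _),
        (⟨w ≫ sigma (law h) (ajCurveTo M h) r, hw⟩ : Pt D') =
          Iso.β M h (pointsClassGen oo hx l) ∧
        ∀ P ∈ l, ∃ j : Fin r,
          ∀ hwX : w (IsLocalRing.closedPoint K) ∈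
              coord (ajCurveTo M h) r j ⁻¹ᵁ Copen (ajCurveTo M h),
            germVal w (coord (ajCurveTo M h) r j ⁻¹ᵁ Copen (ajCurveTo M h)) hwX
              (zfun (ajCurveTo M h) r j (tCopen M h hpole)) = tv P := by
  intro l hl hne
  obtain ⟨w, hw, hβ, hv⟩ := hdict_model M h hx hpole oo hoo tv htv r l hl hne
  refine ⟨w, hw, hβ, fun P hP => ?_⟩
  obtain ⟨j, hj⟩ := hv P hP
  refine ⟨j, fun hwX => ?_⟩
  rw [germVal_zfun (ajCurveTo M h) r j (tCopen M h hpole) w hwX]
  exact hj hwX

/-- **`hdict'`** for the model curve: every `K`-point of `X^r'` is mapped by `σ_r'` to the class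
of `r'` places. -/
theorem hdict'_model (hx : IsGen K x) (oo : Place K F) (hoo : placeBase M = oo) (r' : ℕ)
    (w' : Spec (CommRingCat.of K) ⟶ pw (ajCurveTo M h) r')
    (hw' : (w' ≫ sigma (law h) (ajCurveTo M h) r') ≫ D'.toBase = 𝟙 _) :
    ∃ l' : Multiset (Place K F), Multiset.card l' = r' ∧
      (⟨w' ≫ sigma (law h) (ajCurveTo M h) r', hw'⟩ : Pt D') =
        Iso.β M h (pointsClassGen oo hx l') := by
  subst hoo
  exact hdict'_abs (law h) (ajCurveTo M h) (pointPlaceEquiv M) (pointsClassGen (placeBase M) hx)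
    (Iso.β M h) (sigmaK_eq_β M h hx) r' w' hw'

/-- `hdict'` in the exact shape of the wirings (stratum `r' + 1`, previous power `X^r'`). -/
theorem hdict'_model_lt (hx : IsGen K x) (oo : Place K F) (hoo : placeBase M = oo) (r' : ℕ)
    (w' : Spec (CommRingCat.of K) ⟶ pw (ajCurveTo M h) r')
    (hw' : (w' ≫ sigma (law h) (ajCurveTo M h) r') ≫ D'.toBase = 𝟙 _) :
    ∃ l' : Multiset (Place K F), Multiset.card l' < r' + 1 ∧
      (⟨w' ≫ sigma (law h) (ajCurveTo M h) r', hw'⟩ : Pt D') =
        Iso.β M h (pointsClassGen oo hx l') := by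
  obtain ⟨l', h1, h2⟩ := hdict'_model M h hx oo hoo r' w' hw'
  exact ⟨l', by omega, h2⟩

end Dict

end Fermat.Agent.MW.NorthB25
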