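/-
Programme MW (S17), brick NC-B (helper25), FINAL PLUG of the dictionaries:
**the stratum bounds `NorthAsm2.StratumBound` for the concrete package `J.toGeomCore`
(`J : JData N M`, helper73) from one good affine piece**.

`exists_stratumBound_jdata`: for `J : JData N M`, a piece bound `hb : HtBounded J.D'.toBase J.s J.U`
(helper10), `hpole : UniquePole M` (helper53/helper15), a base place `oo` with
`hoo : placeBase M = oo`, and a total value function `tv` with
`htv : ∀ v ≠ oo, IsVal v M.alg.t (tv v)`:
  `∀ r, ∃ C C', StratumBound hx oo tv J.toGeomCore.height r C C'`.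

This is `NorthB32.exists_stratumBound_succ` (helper32, on top of helper10's wiring) fed with
`NorthB25.hdict_model` and `NorthB25.hdict'_model_lt`.
-/
import Mathlib
import Fermat.Agent.MW.NorthB25.Dict
import Fermat.Agent.MW.NorthB32.Stratum
import Fermat.Agent.MW.JData73

set_option autoImplicit false
set_option maxHeartbeats 400000
set_option linter.unusedSectionVars false
set_option linter.style.haveILetI false

noncomputable section

open CategoryTheory CategoryTheory.Limits AlgebraicGeometry AlgebraicGeometry.RelPicard
  NeronModelInfra GoodReductionJacobian AlgebraicCurve ModularCurve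

namespace Fermat.Agent.MW.NorthB25

open Fermat.Agent.Jac Fermat.Agent.Jac.FinalWiring41 Fermat.Agent.AV.F1Model15
  Fermat.Agent.AV.PicBridge84.SchemeSide Fermat.Agent.AV.PicBridge84
  Fermat.Agent.MW.Bridge34 Fermat.Agent.MW.NorthA85 Fermat.Agent.X0.FF
  Fermat.Agent.AV.Curv33 Fermat.Agent.MW.NorthB32 Fermat.Agent.MW.NorthB10
  Fermat.Agent.MW.HM73 Fermat.Agent.MW.NorthAsm2 Fermat.Agent.MW

open Fermat.Agent.MW.Bridge15 (ajCurveTo placeBase UniquePole tCopen)

variable {N : ℕ} [NeZero N] {M : Model QBar ↥(modularFunctionFieldBar N)} (J : JData N M)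

/-- **NC-B for the stratum `r + 1`, concrete Jacobian.** -/
theorem exists_stratumBound_succ_jdata (hb : HtBounded J.D'.toBase J.s J.U)
    {j : modularFunctionFieldBar N} (hx : IsGen QBar j) (hpole : UniquePole M)
    (oo : Place QBar (modularFunctionFieldBar N)) (hoo : placeBase M = oo)
    (tv : Place QBar (modularFunctionFieldBar N) → QBar)
    (htv : ∀ v : Place QBar (modularFunctionFieldBar N), v ≠ oo → IsVal v M.alg.t (tv v))
    (r : ℕ) :
    ∃ C C' : ℝ, StratumBound hx oo tv J.toGeomCore.height (r + 1) C C' := by
  haveI := M.isIntegral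
  haveI : IsSeparated J.toGeomCore.f := by
    show IsSeparated J.D'.toBase
    infer_instance
  let U' : J.toGeomCore.V.Opens := J.U
  haveI : Nonempty U' := J.nonempty_U
  exact NorthB32.exists_stratumBound_succ J.toGeomCore J.β_injective U' J.isAffineOpen_U hb hx oo
    tv (law J.h) (ajCurveTo M J.h) (tCopen M J.h hpole) r
    (hdict_model M J.h hx hpole oo hoo tv htv (r + 1))
    (hdict'_model_lt M J.h hx oo hoo r)

/-- **NC-B, all strata, concrete Jacobian.** -/
theorem exists_stratumBound_jdata (hb : HtBounded J.D'.toBase J.s J.U)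
    {j : modularFunctionFieldBar N} (hx : IsGen QBar j) (hpole : UniquePole M)
    (oo : Place QBar (modularFunctionFieldBar N)) (hoo : placeBase M = oo)
    (tv : Place QBar (modularFunctionFieldBar N) → QBar)
    (htv : ∀ v : Place QBar (modularFunctionFieldBar N), v ≠ oo → IsVal v M.alg.t (tv v))
    (r : ℕ) :
    ∃ C C' : ℝ, StratumBound hx oo tv J.toGeomCore.height r C C' := by
  cases r with
  | zero => exact ⟨0, 0, NorthB32.stratumBound_zero hx oo tv _⟩
  | succ r => exact exists_stratumBound_succ_jdata J hb hx hpole oo hoo tv htv r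

end Fermat.Agent.MW.NorthB25
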