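/-
Programme MW (S17), brick NC-B (helper25), HEDGE of the integration `north`:
**Northcott for the height of every concrete package `J : JData N (modelX0 c)`**, i.e. the
hypothesis `hnorth` of helper73's `MW.s17_of_jdata` at `M := Bridge53.ModelX0.modelX0 c`.

* `htBounded_jdata`  : the piece bound `HtBounded J.D'.toBase J.s J.U` (helper10's
                       `HtBounded.of_generates` for `D₀ * D₀`);
* `uniquePole_modelX0`, `placeBase_modelX0`, `isVal_valT` : the three model facts
                       (helper53's `pole_iff`, `place_base`; helper61's `valT`);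
* `exists_stratumBound_modelX0` : all strata bounds for `t := c.valT`, `oo := inftyPlace N`;
* `north_jdata`      : `{x : JRat N | J.toGeomCore.height x ≤ B}.Finite`.
-/
import Mathlib
import Fermat.Agent.MW.NorthB25.StratumJ
import Fermat.Agent.MW.Bridge53.ModelX0
import Fermat.Agent.MW.NorthAsm2e
import Fermat.Agent.MW.NorthB10.CaDivPiece
import Fermat.Agent.MW.NorthB10.CaDivSupport

set_option autoImplicit false
set_option maxHeartbeats 400000
set_option linter.unusedSectionVars false
set_option linter.style.haveILetI false

noncomputable section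

open CategoryTheory CategoryTheory.Limits AlgebraicGeometry AlgebraicGeometry.RelPicard
  NeronModelInfra GoodReductionJacobian AlgebraicCurve ModularCurve

namespace Fermat.Agent.MW.NorthB25

open Fermat.Agent.Jac Fermat.Agent.Jac.FinalWiring41 Fermat.Agent.AV.F1Model15
  Fermat.Agent.AV.PicBridge84 Fermat.Agent.AV.PicDiv86
  Fermat.Agent.MW.Bridge34 Fermat.Agent.MW.NorthA85 Fermat.Agent.X0.FF
  Fermat.Agent.MW.NorthB10 Fermat.Agent.MW.HM73 Fermat.Agent.MW.NorthAsm2 Fermat.Agent.MW
  Fermat.Agent.MW.NCA61.InfPlace Fermat.Agent.MW.NCA61.Final Fermat.Agent.MW.Bridge53.ModelX0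

open Fermat.Agent.MW.Bridge15 (placeBase UniquePole uniquePole_of_ord)

variable {N : ℕ} [NeZero N]

/-! ### The piece bound -/

/-- **The good affine piece of the concrete package.** -/
theorem htBounded_jdata {M : Model QBar ↥(modularFunctionFieldBar N)} (J : JData N M) :
    HtBounded J.D'.toBase J.s J.U := by
  haveI : UniversallyClosed J.D'.toBase := inferInstance
  haveI : LocallyOfFiniteType J.D'.toBase := inferInstance
  have hE : (J.D₀ * J.D₀).IsEffective := J.effective.mul J.effective
  refine HtBounded.of_generates J.D'.toBase hE J.generates 0 J.s_zero J.U ?_ J.isAffineOpen_U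
  rw [support_mul_of_isEffective J.effective J.effective, Set.union_self, J.support_eq,
    compl_compl]

/-! ### The model facts -/

variable (c : Coordinate N)

theorem uniquePole_modelX0 : UniquePole (modelX0 c) :=
  uniquePole_of_ord (modelX0 c) (inftyPlace N) (pole_iff c)

theorem placeBase_modelX0 : placeBase (modelX0 c) = inftyPlace N := by
  rw [placeBase_eq, place_base]

theorem isVal_valT (v : Place QBar (modularFunctionFieldBar N)) (hv : v ≠ inftyPlace N) :
    IsVal v (modelX0 c).alg.t (c.valT v) :=
  isVal_iff_ord.mpr (Or.inr (isValueFun_valT c v hv))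

/-! ### The strata bounds and `north` -/

/-- **All the strata bounds** for the concrete package over `modelX0 c`. -/
theorem exists_stratumBound_modelX0 (J : JData N (modelX0 c)) (r : ℕ) :
    ∃ C C' : ℝ, StratumBound c.isGen (inftyPlace N) c.valT J.toGeomCore.height r C C' :=
  exists_stratumBound_jdata J (htBounded_jdata J) c.isGen (uniquePole_modelX0 c) (inftyPlace N)
    (placeBase_modelX0 c) c.valT (isVal_valT c) r

/-- **NORTH for the concrete package**: the hypothesis `hnorth` of `MW.s17_of_jdata`. -/
theorem north_jdata (J : JData N (modelX0 c)) (B : ℝ) :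
    {x : Fermat.Agent.MW73.JRat N | J.toGeomCore.height (x : JZero N) ≤ B}.Finite :=
  north_of_geomCore J.toGeomCore c (fun r _ => exists_stratumBound_modelX0 c J r) B

end Fermat.Agent.MW.NorthB25
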